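/-
Programme T1B (S44), J-BRIDGE (B1) CHARTISO-N (helper25), part 1: the GENERIC-FIBRE chart
isomorphism, without any model over the big field.

Twin of `T1/ChartIso20` (helper20).  There the surjectivity of the multiplication map
`nu : L ⊗[R] ↥B → F'` onto the integral closure of `L[s']` used a model `B'` over `R' ⊂ L`
(`B' = R' · B`).  For the NODAL hub of T1B no model over an arbitrary finite `L ⊇ K` is available
(`L / K` may be ramified at `p`, where the model is only normal), and only the GENERIC fibre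
matters.  Here the surjectivity is proved from the generic-fibre step of helper51's base change
theorem alone (`BCData.coords_mem_invPi`, trace form of `L / K`):

* `intOverA_of_mem_adjoin_L` : `L[iF s]` is integral over `B[1/π]`;
* `mem_range_nu_of_isIntegral_gen` : every element of `F'` integral over `L[iF s]` is a value of
  `nu` (for `B` integrally closed in `F`, `s ∈ B`);
* `chartEquivGen : L ⊗[R] ↥B ≃ₐ[L] ↥(C0 (K := L) s')`;
* `chartIsoN : Adapt96.ChartIso ((nodalChart hK).baseChange L) (D.iF t)` for a nodal two-chart model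
  `hK` over `R` and ANY base change data `D : BCData K L π π' Ov Ov'` (the valuation rings of `D`
  are irrelevant: only `iR`, `iK`, `iF`, `ω` are used);
* `chartIsoN_e0_tmul`, … : it is STANDARD on pure tensors (`rfl`).
-/
import Mathlib
import Fermat.Agent.T1.ChartIso20
import Fermat.Agent.T1B.NodalFacts23.Good

set_option autoImplicit false
set_option linter.unusedSectionVars false
set_option linter.style.haveILetI false

noncomputable section

open TensorProduct Polynomial

namespace Fermat.Agent.T1B.Bridge25.ChartIsoGen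

open Fermat.Agent.RED.CORE.CoreIface24 Fermat.Agent.RED.PUR.ChartGeneric22
open Fermat.Agent.T1.ModelBC51.Abstract Fermat.Agent.T1.ModelBC51.Model
open Fermat.Agent.T1.ModelBC51.Equiv Fermat.Agent.T1.ModelBC51.InvPi Fermat.Agent.T1.Dict59
open Fermat.Agent.T1.ChartIso20
open scoped Fermat.Agent.Jac.BaseChange75

universe u

variable {R K F : Type u} [CommRing R] [Field K] [Field F] [Algebra R K] [Algebra K F]
  [Algebra R F] [IsScalarTower R K F]
variable {R' L F' : Type u} [CommRing R'] [Field L] [Field F'] [Algebra R' L] [Algebra L F']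
  [Algebra R' F'] [IsScalarTower R' L F']
variable {π : R} {π' : R'} {Ov : ValuationSubring F} {Ov' : ValuationSubring F'}
  (D : BCData K L π π' Ov Ov') [Algebra R R'] (halg : ∀ r : R, algebraMap R R' r = D.iR r)

/-! ### Surjectivity of `nu` on the generic fibre -/

section Range

/-- Elements of `L[iF s]` are integral over `B[1/π]` (through `F → F'`). -/
theorem intOverA_of_mem_adjoin_L (B : Subalgebra R F)
    (hKA : ∀ c : K, algebraMap K F c ∈ invPi π B) {s : F} (hs : s ∈ B) {y : F'}
    (hy : y ∈ Algebra.adjoin L {D.iF s}) : D.IntOverA B y := by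
  induction hy using Algebra.adjoin_induction with
  | mem z hz =>
    rw [Set.mem_singleton_iff] at hz
    subst hz
    exact D.intOverA_map B (le_invPi π B hs)
  | algebraMap l => exact D.intOverA_const B hKA l
  | add a b _ _ ha hb => exact D.intOverA_add B ha hb
  | mul a b _ _ ha hb => exact D.intOverA_mul B ha hb

include halg in
/-- **Every element of `F'` integral over `L[iF s]` is a value of `nu`**, when `B` is integrally
closed in `F` and contains `s`: generic fibre only, no model over `L`. -/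
theorem mem_range_nu_of_isIntegral_gen [CharZero K] [IsFractionRing R K]
    (dvrR : ∀ r : R, r ≠ 0 → ∃ (k : ℕ) (v : Rˣ), r = π ^ k * v)
    (pi_ne : algebraMap R F π ≠ 0)
    {B : Subalgebra R F} {s : F} (hs : s ∈ B) (intcl : ∀ x : F, IsIntegral B x → x ∈ B)
    {x : F'} (hx : IsIntegral (Algebra.adjoin L {D.iF s}) x) :
    letI := algRL R R' L
    ∃ z : L ⊗[R] ↥B, nu D halg B z = x := by
  letI := algRL R R' L
  classical
  have hKA : ∀ c : K, algebraMap K F c ∈ invPi π B := algebraMap_mem_invPi B dvrR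
  have hxA : D.IntOverA B x := by
    rw [isIntegral_subalgebra_iff] at hx
    obtain ⟨P, hP, hcoeff, hPx⟩ := hx
    exact D.intOverA_of_root B P hP
      (fun i => intOverA_of_mem_adjoin_L D B hKA hs (hcoeff i)) hPx
  obtain ⟨a, ha⟩ := D.ω_spanF x
  have hcoord : ∀ j, a j ∈ invPi π B := D.coords_mem_invPi B intcl hKA hxA a ha
  obtain ⟨m, hm⟩ := exists_common_pow Finset.univ a (fun i _ => hcoord i)
  have hπL : algebraMap L F' (algebraMap R L (π ^ m)) = D.iF (algebraMap R F π ^ m) := by
    rw [algebraMap_RL D halg, D.hKF, ← IsScalarTower.algebraMap_apply R K F, map_pow]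
  have hπne : D.iF (algebraMap R F π ^ m) ≠ 0 := by
    rw [Ne, map_eq_zero]
    exact pow_ne_zero _ pi_ne
  refine ⟨∑ i, ((algebraMap R L (π ^ m))⁻¹ * D.ω i) ⊗ₜ[R]
    (⟨algebraMap R F π ^ m * a i, hm i (Finset.mem_univ i)⟩ : ↥B), ?_⟩
  rw [map_sum, ha]
  refine Finset.sum_congr rfl fun i _ => ?_
  rw [nu_tmul, map_mul, map_inv₀, hπL, map_mul]
  field_simp

end Range

/-! ### The identification of one hub chart with the field-level chart -/

section Equiv

variable {B : Subalgebra R F} {s : F} {s' : F'}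

include halg in
theorem nuC0_bijective_gen [CharZero K] [IsFractionRing R K]
    (hss' : D.iF s = s') (int : ∀ x ∈ B, IsIntegral (Algebra.adjoin R {s}) x)
    (dvrR : ∀ r : R, r ≠ 0 → ∃ (k : ℕ) (v : Rˣ), r = π ^ k * v) (pi_ne : algebraMap R F π ≠ 0)
    (hs : s ∈ B) (intcl : ∀ x : F, IsIntegral B x → x ∈ B) :
    letI := algRL R R' L
    Function.Bijective (nuC0 D halg hss' int) := by
  letI := algRL R R' L
  constructor
  · intro z z' h
    apply nu_injective D halg (B := B) dvrR pi_ne
    exact congrArg (fun y : ↥(C0 (K := L) s') => (y : F')) h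
  · rintro ⟨x, hx⟩
    subst hss'
    obtain ⟨z, hz⟩ := mem_range_nu_of_isIntegral_gen D halg dvrR pi_ne hs intcl
      ((mem_C0_iff (D.iF s) x).1 hx)
    exact ⟨z, Subtype.ext hz⟩

/-- **`L ⊗[R] ↥B ≃ₐ[L]` the integral closure of `L[s']` in `F'`** (generic fibre only). -/
def chartEquivGen [CharZero K] [IsFractionRing R K]
    (hss' : D.iF s = s') (int : ∀ x ∈ B, IsIntegral (Algebra.adjoin R {s}) x)
    (dvrR : ∀ r : R, r ≠ 0 → ∃ (k : ℕ) (v : Rˣ), r = π ^ k * v) (pi_ne : algebraMap R F π ≠ 0)
    (hs : s ∈ B) (intcl : ∀ x : F, IsIntegral B x → x ∈ B) :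
    letI := algRL R R' L
    L ⊗[R] ↥B ≃ₐ[L] ↥(C0 (K := L) s') :=
  letI := algRL R R' L
  AlgEquiv.ofBijective (nuC0 D halg hss' int)
    (nuC0_bijective_gen D halg hss' int dvrR pi_ne hs intcl)

theorem coe_chartEquivGen [CharZero K] [IsFractionRing R K]
    (hss' : D.iF s = s') (int : ∀ x ∈ B, IsIntegral (Algebra.adjoin R {s}) x)
    (dvrR : ∀ r : R, r ≠ 0 → ∃ (k : ℕ) (v : Rˣ), r = π ^ k * v) (pi_ne : algebraMap R F π ≠ 0)
    (hs : s ∈ B) (intcl : ∀ x : F, IsIntegral B x → x ∈ B) :
    letI := algRL R R' L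
    ∀ z : L ⊗[R] ↥B,
      ((chartEquivGen D halg hss' int dvrR pi_ne hs intcl z : ↥(C0 (K := L) s')) : F') =
        nu D halg B z :=
  fun _ => rfl

end Equiv

/-! ### The chart isomorphism of the nodal model -/

section Nodal

open Fermat.Agent.Jac Fermat.Agent.T1.Coh60 Fermat.Agent.ES.N34.NodalCore13
  Fermat.Agent.T1B.NodalFacts23

variable {t : F} {B0 B1 : Subalgebra R F} {O1 O2 : ValuationSubring F}
  (hK : NodalTwoChartModel R F π t B0 B1 O1 O2) [CharZero K] [IsFractionRing R K]
  (dvrR : ∀ r : R, r ≠ 0 → ∃ (k : ℕ) (v : Rˣ), r = π ^ k * v)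

/-- The identification of chart 0. -/
def e0N : letI := algRL R R' L
    L ⊗[R] ↥B0 ≃ₐ[L] ↥(C0 (K := L) (D.iF t)) :=
  chartEquivGen D halg rfl hK.int0 dvrR hK.pi_ne hK.t_mem hK.intcl0

/-- The identification of chart 1. -/
def e1N : letI := algRL R R' L
    L ⊗[R] ↥B1 ≃ₐ[L] ↥(C1 (K := L) (D.iF t)) :=
  chartEquivGen D halg (map_inv₀ D.iF t) hK.int1 dvrR hK.pi_ne hK.tinv_mem hK.intcl1

theorem coe_e0N : letI := algRL R R' L
    ∀ z : L ⊗[R] ↥B0, ((e0N D halg hK dvrR z : ↥(C0 (K := L) (D.iF t))) : F') = nu D halg B0 z :=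
  fun _ => rfl

theorem coe_e1N : letI := algRL R R' L
    ∀ z : L ⊗[R] ↥B1, ((e1N D halg hK dvrR z : ↥(C1 (K := L) (D.iF t))) : F') = nu D halg B1 z :=
  fun _ => rfl

/-- **J-BRIDGE (B1) CHARTISO-N, generic form.**  The generic fibre of the hub of the nodal model
is the field-level two-chart curve of `F' / L` with coordinate `iF t`. -/
def chartIsoN :
    letI := algRL R R' L
    letI := algebra0 B0 B1
    letI := algebra1 B0 B1
    haveI := isScalarTower0 B0 B1
    haveI := isScalarTower1 B0 B1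
    Fermat.Agent.T1.Adapt96.ChartIso ((nodalChart hK).baseChange L) (D.iF t) :=
  letI := algRL R R' L
  letI := algebra0 B0 B1
  letI := algebra1 B0 B1
  haveI := isScalarTower0 B0 B1
  haveI := isScalarTower1 B0 B1
  { e0 := (e0N D halg hK dvrR).toRingEquiv
    e1 := (e1N D halg hK dvrR).toRingEquiv
    e01 := (nu D halg (B0 ⊔ B1)).toRingHom
    e01_inj := nu_injective D halg dvrR hK.pi_ne
    comm0 := fun x => by
      show nu D halg (B0 ⊔ B1) (algebraMap (L ⊗[R] ↥B0) (L ⊗[R] ↥(B0 ⊔ B1)) x) =
        nu D halg B0 x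
      induction x using TensorProduct.induction_on with
      | zero => rw [map_zero, map_zero, map_zero]
      | tmul l b =>
        rw [Fermat.Agent.Jac.BaseChange75.algebraMap_right_tmul, nu_tmul, nu_tmul]
        rfl
      | add x y hx hy => rw [map_add, map_add, hx, hy, map_add]
    comm1 := fun x => by
      show nu D halg (B0 ⊔ B1) (algebraMap (L ⊗[R] ↥B1) (L ⊗[R] ↥(B0 ⊔ B1)) x) =
        nu D halg B1 x
      induction x using TensorProduct.induction_on with
      | zero => rw [map_zero, map_zero, map_zero]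
      | tmul l b =>
        rw [Fermat.Agent.Jac.BaseChange75.algebraMap_right_tmul, nu_tmul, nu_tmul]
        rfl
      | add x y hx hy => rw [map_add, map_add, hx, hy, map_add]
    map_t := by
      show nu D halg B0 ((1 : L) ⊗ₜ[R] (⟨t, hK.t_mem⟩ : ↥B0)) = D.iF t
      rw [nu_tmul, map_one, one_mul]
    map_s := by
      show nu D halg B1 ((1 : L) ⊗ₜ[R] (⟨t⁻¹, hK.tinv_mem⟩ : ↥B1)) = (D.iF t)⁻¹
      rw [nu_tmul, map_one, one_mul, map_inv₀]
    linear0 := fun a => by
      show nu D halg B0 (algebraMap L (L ⊗[R] ↥B0) a) = algebraMap L F' a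
      exact (nu D halg B0).commutes a
    linear1 := fun a => by
      show nu D halg B1 (algebraMap L (L ⊗[R] ↥B1) a) = algebraMap L F' a
      exact (nu D halg B1).commutes a }

/-! ### The chart isomorphism is standard on pure tensors -/

theorem chartIsoN_e0_tmul (l : L) (b : ↥B0) :
    letI := algRL R R' L
    letI := algebra0 B0 B1
    letI := algebra1 B0 B1
    haveI := isScalarTower0 B0 B1
    haveI := isScalarTower1 B0 B1
    (((chartIsoN D halg hK dvrR).e0 (l ⊗ₜ[R] b) : ↥(C0 (K := L) (D.iF t))) : F') =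
      algebraMap L F' l * D.iF (b : F) := rfl

theorem chartIsoN_e1_tmul (l : L) (b : ↥B1) :
    letI := algRL R R' L
    letI := algebra0 B0 B1
    letI := algebra1 B0 B1
    haveI := isScalarTower0 B0 B1
    haveI := isScalarTower1 B0 B1
    (((chartIsoN D halg hK dvrR).e1 (l ⊗ₜ[R] b) : ↥(C1 (K := L) (D.iF t))) : F') =
      algebraMap L F' l * D.iF (b : F) := rfl

theorem chartIsoN_e01_tmul (l : L) (b : ↥(B0 ⊔ B1)) :
    letI := algRL R R' L
    letI := algebra0 B0 B1
    letI := algebra1 B0 B1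
    haveI := isScalarTower0 B0 B1
    haveI := isScalarTower1 B0 B1
    (chartIsoN D halg hK dvrR).e01 (l ⊗ₜ[R] b) = algebraMap L F' l * D.iF (b : F) := rfl

theorem chartIsoN_e0_apply :
    letI := algRL R R' L
    letI := algebra0 B0 B1
    letI := algebra1 B0 B1
    haveI := isScalarTower0 B0 B1
    haveI := isScalarTower1 B0 B1
    ∀ z : L ⊗[R] ↥B0,
      (((chartIsoN D halg hK dvrR).e0 z : ↥(C0 (K := L) (D.iF t))) : F') = nu D halg B0 z :=
  fun _ => rfl

theorem chartIsoN_e1_apply :
    letI := algRL R R' L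
    letI := algebra0 B0 B1
    letI := algebra1 B0 B1
    haveI := isScalarTower0 B0 B1
    haveI := isScalarTower1 B0 B1
    ∀ z : L ⊗[R] ↥B1,
      (((chartIsoN D halg hK dvrR).e1 z : ↥(C1 (K := L) (D.iF t))) : F') = nu D halg B1 z :=
  fun _ => rfl

theorem chartIsoN_e01_apply :
    letI := algRL R R' L
    letI := algebra0 B0 B1
    letI := algebra1 B0 B1
    haveI := isScalarTower0 B0 B1
    haveI := isScalarTower1 B0 B1
    ∀ z : L ⊗[R] ↥(B0 ⊔ B1), (chartIsoN D halg hK dvrR).e01 z = nu D halg (B0 ⊔ B1) z :=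
  fun _ => rfl

end Nodal

end Fermat.Agent.T1B.Bridge25.ChartIsoGen
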