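/-
Programme T1B (S44), J-BRIDGE (B1) CHARTISO-N (helper25), part 2a: generic transport of the
nodal chart isomorphism `ChartIsoGen.chartIsoN` along an equation `D.iF t = t'`, together with its
pure tensor formulas (the nodal twin of helper22's `ChartIsoConcrete22.Generic.exists_chartIso_std`;
no model over `L` is needed).
-/
import Mathlib
import Fermat.Agent.T1B.Bridge25.ChartIsoGen

set_option autoImplicit false
set_option linter.unusedSectionVars false
set_option linter.style.haveILetI false

noncomputable section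

open TensorProduct

namespace Fermat.Agent.T1B.Bridge25.ChartIsoNStd

open Fermat.Agent.RED.CORE.CoreIface24
open Fermat.Agent.T1.ModelBC51.Abstract Fermat.Agent.T1.ModelBC51.Equiv
open Fermat.Agent.T1.Dict59 Fermat.Agent.Jac Fermat.Agent.T1.Coh60
open Fermat.Agent.ES.N34.NodalCore13 Fermat.Agent.T1B.NodalFacts23
open Fermat.Agent.T1B.Bridge25.ChartIsoGen
open scoped Fermat.Agent.Jac.BaseChange75

universe u

variable {R K F : Type u} [CommRing R] [Field K] [Field F] [Algebra R K] [Algebra K F]
  [Algebra R F] [IsScalarTower R K F]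
variable {R' L F' : Type u} [CommRing R'] [Field L] [Field F'] [Algebra R' L] [Algebra L F']
  [Algebra R' F'] [IsScalarTower R' L F']
variable {π : R} {π' : R'} {Ov : ValuationSubring F} {Ov' : ValuationSubring F'}
  (D : BCData K L π π' Ov Ov') [Algebra R R'] (halg : ∀ r : R, algebraMap R R' r = D.iR r)
variable {t : F} {B0 B1 : Subalgebra R F} {O1 O2 : ValuationSubring F}
  (hK : NodalTwoChartModel R F π t B0 B1 O1 O2) [CharZero K] [IsFractionRing R K]
  (dvrR : ∀ r : R, r ≠ 0 → ∃ (k : ℕ) (v : Rˣ), r = π ^ k * v)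

include halg dvrR in
/-- **The chart isomorphism of the nodal model over `L`, at a coordinate `t' = D.iF t`**, with its
pure tensor formulas (`E.e_j (l ⊗ b) = l · D.iF b`). -/
theorem exists_chartIsoN_std {t' : F'} (ht : D.iF t = t') :
    letI := algRL R R' L
    letI := algebra0 B0 B1
    letI := algebra1 B0 B1
    haveI := isScalarTower0 B0 B1
    haveI := isScalarTower1 B0 B1
    ∃ E : Fermat.Agent.T1.Adapt96.ChartIso ((nodalChart hK).baseChange L) t',
      (∀ (l : L) (b : ↥B0),
        ((E.e0 (l ⊗ₜ[R] b) : ↥(C0 (K := L) t')) : F') = algebraMap L F' l * D.iF (b : F)) ∧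
      (∀ (l : L) (b : ↥B1),
        ((E.e1 (l ⊗ₜ[R] b) : ↥(C1 (K := L) t')) : F') = algebraMap L F' l * D.iF (b : F)) ∧
      (∀ (l : L) (b : ↥(B0 ⊔ B1)),
        E.e01 (l ⊗ₜ[R] b) = algebraMap L F' l * D.iF (b : F)) := by
  subst ht
  exact ⟨chartIsoN D halg hK dvrR, chartIsoN_e0_tmul D halg hK dvrR,
    chartIsoN_e1_tmul D halg hK dvrR, chartIsoN_e01_tmul D halg hK dvrR⟩

end Fermat.Agent.T1B.Bridge25.ChartIsoNStd
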