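/-
Programme T1B (S44), J-BRIDGE (B1) CHARTISO-N (helper25), part 2b: the CONCRETE standard chart
isomorphism of the nodal hub over EVERY number field `L ⊇ K` (no normality, no nodal model over `L`).

`K ≤ L` number fields in `ℚ̄`, `A` a valuation subring of `ℚ̄` over a prime `ℓ`, bad level
`N = M' * q`, `hK : NodalNumData …` the nodal model bundle over `K` (ES/N34, `ModelDefs9`),
`c0 := nodalChart hK.model : TwoChart ↥(AK A K) ↥B0 ↥B1 ↥(B0 ⊔ B1)`.

* `exists_stdIso_EL` : there is `E : Adapt96.ChartIso (c0.baseChange ↥L) (tN q htL)`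
  (for `letI := HubInst98.algAKL A h`) which is standard, `ChartIso90.IsStdIso N h β0 β1 β01 E`, for
  the inclusions `β_j : ↥B_j → FK N K`;
* `EL`, `isStdIso_EL` : the chosen one.

Uses the generic `ChartIsoNStd.exists_chartIsoN_std` and helper23's base change data `NodalNF.bcD`.
-/
import Mathlib
import Fermat.Agent.T1B.Bridge25.ChartIsoNStd
import Fermat.Agent.T1B.NodalBC23.NodalNF
import Fermat.Agent.T1.ChartIso90

set_option autoImplicit false
set_option linter.unusedSectionVars false
set_option linter.style.haveILetI false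
set_option maxHeartbeats 1000000
set_option synthInstance.maxHeartbeats 400000

noncomputable section

namespace Fermat.Agent.T1B.Bridge25.ChartIsoNF

open TensorProduct HahnSeries ModularCurve IntermediateField
open Fermat.Agent.RED.Interface4 Fermat.Agent.RED.PUR.GaussGen8
open Fermat.Agent.RED.BASE.EtaQuot12
open Fermat.Agent.ES.N34.ModelDefs9 Fermat.Agent.ES.N34.NumData13 Fermat.Agent.ES.N34.NodalCore13
open Fermat.Agent.T1.ModelBC51.Abstract Fermat.Agent.T1.ModelBC51.Equiv
open Fermat.Agent.T1.HubInst98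
open Fermat.Agent.T1B.NodalFacts23
open Fermat.Agent.T1B.NodalBC23.NumField Fermat.Agent.T1B.NodalBC23.NodalNF
open Fermat.Agent.T1B.Bridge25.ChartIsoNStd
open Fermat.Agent.T1.Adapt96 Fermat.Agent.T1.Dict59 Fermat.Agent.T1.ChartIso90
open Fermat.Agent.Jac Fermat.Agent.Jac.BaseChange75
open scoped Fermat.Agent.Jac.BaseChange75
open Fermat.Agent.T1.Coh60 (algebra0 algebra1 isScalarTower0 isScalarTower1)

/-! ### Local shortcut instances (instance search at `↥(AK A K)`, `↥(FK N K)` is slow) -/

local instance (priority := high) scAlgKF (K : IntermediateField ℚ Qbar) (N : ℕ) [NeZero N] :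
    Algebra ↥K ↥(FK N K) := inferInstance

local instance (priority := high) scAlgAK (A : ValuationSubring Qbar)
    (K : IntermediateField ℚ Qbar) : Algebra ↥(AK A K) ↥K := inferInstance

local instance (priority := high) scAlgAF (A : ValuationSubring Qbar)
    (K : IntermediateField ℚ Qbar) (N : ℕ) [NeZero N] : Algebra ↥(AK A K) ↥(FK N K) :=
  inferInstance

local instance (priority := high) scTower (A : ValuationSubring Qbar)
    (K : IntermediateField ℚ Qbar) (N : ℕ) [NeZero N] :
    IsScalarTower ↥(AK A K) ↥K ↥(FK N K) := inferInstance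

variable (A : ValuationSubring Qbar) {K L : IntermediateField ℚ Qbar} (h : K ≤ L)
  (M' q : ℕ) [NeZero M'] [NeZero q] {n e : ℕ} [NeZero n]
  {ℓ : ℕ} (hℓ : ℓ ≠ 0) (hA : A.LiesOverPrime ℓ) [FiniteDimensional ℚ L]
  {π : ↥(AK A K)} {π' : ↥(AK A L)} (hπ : IsUnif (AK A K) π) (hπ' : IsUnif (AK A L) π')
  (hE : FK (M' * q) K ≤ fracField (AK A K)) (hE' : FK (M' * q) L ≤ fracField (AK A L))
  (htK : tq ↥K n e ∈ FK M' K) (htL : tq ↥L n e ∈ FK M' L)
  (hK : NodalNumData ↥(AK A K) ↥K ↥(FK (M' * q) K) π (tN q htK) (B0 A q htK) (B1 A q htK)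
    (O1 M' q hπ hE) (O2 M' q hπ hE))

/-- helper23's coefficient extension is helper59's `cLL`. -/
theorem cF_eq_cLL (N : ℕ) [NeZero N] : cF h N = cLL N h :=
  RingHom.ext fun _ => Subtype.ext rfl

/-- The inclusion `↥B → FK N K` of a chart, as a ring hom. -/
def betaOf (B : Subalgebra ↥(AK A K) ↥(FK (M' * q) K)) : ↥B →+* FK (M' * q) K :=
  B.val.toRingHom

theorem betaOf_apply (B : Subalgebra ↥(AK A K) ↥(FK (M' * q) K)) (b : ↥B) :
    betaOf A M' q B b = (b : ↥(FK (M' * q) K)) := rfl

include hℓ hA hπ' hE' in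
/-- **J-BRIDGE (B1) CHARTISO-N, concrete form**: the chart isomorphism of the nodal hub over every
number field `L ⊇ K`, at the Hauptmodul `tN q htL` of level `L`, standard with respect to the
inclusions `β_j : ↥B_j → FK N K`. -/
theorem exists_stdIso_EL :
    letI := algAKL A h
    letI := algebra0 (B0 A q htK) (B1 A q htK)
    letI := algebra1 (B0 A q htK) (B1 A q htK)
    haveI := isScalarTower0 (B0 A q htK) (B1 A q htK)
    haveI := isScalarTower1 (B0 A q htK) (B1 A q htK)
    ∃ E : ChartIso ((nodalChart hK.model).baseChange ↥L) (tN q htL),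
      IsStdIso (M' * q) h (betaOf A M' q (B0 A q htK)) (betaOf A M' q (B1 A q htK))
        (betaOf A M' q (B0 A q htK ⊔ B1 A q htK)) E := by
  letI := algAK A h
  letI := algAKL A h
  letI := algebra0 (B0 A q htK) (B1 A q htK)
  letI := algebra1 (B0 A q htK) (B1 A q htK)
  haveI := isScalarTower0 (B0 A q htK) (B1 A q htK)
  haveI := isScalarTower1 (B0 A q htK) (B1 A q htK)
  haveI := hK.fracR
  obtain ⟨E, e0, e1, e01⟩ := exists_chartIsoN_std (bcD A h M' q hℓ hA hπ hπ' hE hE')
    (halg A h M' q hℓ hA hπ hπ' hE hE') hK.model hK.dvrR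
    (bcD_iF_tN A h M' q hℓ hA hπ hπ' hE hE' htK htL)
  have h3 : ∀ x : ↥(FK (M' * q) K),
      (bcD A h M' q hℓ hA hπ hπ' hE hE').iF x = cLL (M' * q) h x := fun x => by
    rw [bcD_iF_apply, cF_eq_cLL]
  refine ⟨E, isStdIso_of_tmul (fun l b => ?_) (fun l b => ?_) (fun l b => ?_)⟩
  · exact (e0 l b).trans (congrArg (fun y => algebraMap ↥L ↥(FK (M' * q) L) l * y) (h3 _))
  · exact (e1 l b).trans (congrArg (fun y => algebraMap ↥L ↥(FK (M' * q) L) l * y) (h3 _))
  · exact (e01 l b).trans (congrArg (fun y => algebraMap ↥L ↥(FK (M' * q) L) l * y) (h3 _))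

/-- **The chosen concrete chart isomorphism over `L ⊇ K`.** -/
def EL :
    letI := algAKL A h
    letI := algebra0 (B0 A q htK) (B1 A q htK)
    letI := algebra1 (B0 A q htK) (B1 A q htK)
    haveI := isScalarTower0 (B0 A q htK) (B1 A q htK)
    haveI := isScalarTower1 (B0 A q htK) (B1 A q htK)
    ChartIso ((nodalChart hK.model).baseChange ↥L) (tN q htL) :=
  letI := algAKL A h
  Classical.choose (exists_stdIso_EL A h M' q hℓ hA hπ hπ' hE hE' htK htL hK)

/-- **`EL` is standard** with respect to the inclusions `β_j : ↥B_j → FK N K`. -/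
theorem isStdIso_EL :
    letI := algAKL A h
    letI := algebra0 (B0 A q htK) (B1 A q htK)
    letI := algebra1 (B0 A q htK) (B1 A q htK)
    haveI := isScalarTower0 (B0 A q htK) (B1 A q htK)
    haveI := isScalarTower1 (B0 A q htK) (B1 A q htK)
    IsStdIso (M' * q) h (betaOf A M' q (B0 A q htK)) (betaOf A M' q (B1 A q htK))
      (betaOf A M' q (B0 A q htK ⊔ B1 A q htK))
      (EL A h M' q hℓ hA hπ hπ' hE hE' htK htL hK) :=
  letI := algAKL A h
  Classical.choose_spec (exists_stdIso_EL A h M' q hℓ hA hπ hπ' hE hE' htK htL hK)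

end Fermat.Agent.T1B.Bridge25.ChartIsoNF
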