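/-
Programme T1B (S44), J-BRIDGE (B1) CHARTISO-N (helper25), part 3: **the chart isomorphism family of
the nodal hub** `Bridge39.ChartIsoFamilyN A (M' * q) K H.c0`, for every nodal hub record
`H : Bridge48.HubRec.NodalHubAt A q M' n e K` over a valuation subring `A` of `ℚ̄` above a prime `ℓ`.

* `exists_isUnif_AKL` : the discrete valuation ring `A ∩ L` has a uniformiser (`L` a number field);
* `exists_stdIso H hℓ hA L hle` : a STANDARD chart isomorphism
  `E : ChartIso (H.c0.baseChange ↥L) (tL H hle)` over every finite `L ⊇ K`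
  (from `Bridge25.ChartIsoNF.exists_stdIso_EL`);
* `E`, `isStdIso` : the chosen one;
* `nodalChartIsoFamilyN H hℓ hA : ChartIsoFamilyN A (M' * q) K H.c0`
  (via helper48's `Bridge48.HubFam.nodalFamily`).
-/
import Mathlib
import Fermat.Agent.T1B.Bridge25.ChartIsoNF
import Fermat.Agent.T1B.Bridge48.HubFam
import Fermat.Agent.RED.DESC.NumberFieldDVR27
import Fermat.Agent.RED.PUR.GaussBridge10

set_option autoImplicit false
set_option linter.unusedSectionVars false
set_option linter.style.haveILetI false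
set_option maxHeartbeats 1000000
set_option synthInstance.maxHeartbeats 400000

noncomputable section

namespace Fermat.Agent.T1B.Bridge25.FamilyN

open TensorProduct HahnSeries ModularCurve IntermediateField
open Fermat.Agent Fermat.Agent.Jac Fermat.Agent.T1.HubInst98
open Fermat.Agent.RED.Interface4 Fermat.Agent.RED.PUR.GaussGen8
open Fermat.Agent.RED.BASE.EtaQuot12
open Fermat.Agent.ES.N34.ModelDefs9 Fermat.Agent.ES.N34.NumData13
open Fermat.Agent.T1.Adapt96 Fermat.Agent.T1.Dict59 Fermat.Agent.T1.Coh60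
open Fermat.Agent.T1.ChartIso90 Fermat.Agent.T1B.Bridge39
open Fermat.Agent.T1B.Bridge48.HubRec Fermat.Agent.T1B.Bridge48.HubFam
open Fermat.Agent.T1B.Bridge25.ChartIsoNF
open scoped Fermat.Agent.Jac.BaseChange75

variable {A : ValuationSubring Qbar} {q M' n e : ℕ} [NeZero q] [NeZero M'] [NeZero n]
  {K : IntermediateField ℚ Qbar}

/-- `A ∩ L` has a uniformiser (in the sense of `GaussGen8.IsUnif`), `L` a number field. -/
theorem exists_isUnif_AKL {ℓ : ℕ} (hℓ : ℓ ≠ 0) (hA : A.LiesOverPrime ℓ)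
    (L : IntermediateField ℚ Qbar) [FiniteDimensional ℚ L] :
    ∃ π : ↥(AK A L), IsUnif (AK A L) π := by
  haveI : IsDiscreteValuationRing ↥(AK A L) :=
    Fermat.Agent.RED.DESC.NumberFieldDVR27.isDiscreteValuationRing_AK A L hℓ hA
  obtain ⟨π, hπ⟩ := IsDiscreteValuationRing.exists_irreducible ↥(AK A L)
  exact ⟨π, isUnif_of_irreducible (AK A L) hπ⟩

attribute [local instance] Fermat.Agent.T1.Coh60.algebra0 Fermat.Agent.T1.Coh60.algebra1
  Fermat.Agent.T1.Coh60.isScalarTower0 Fermat.Agent.T1.Coh60.isScalarTower1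

/-- **The standard chart isomorphism of the nodal hub over every number field `L ⊇ K`.** -/
theorem exists_stdIso (H : NodalHubAt A q M' n e K) {ℓ : ℕ} (hℓ : ℓ ≠ 0)
    (hA : A.LiesOverPrime ℓ) (L : IntermediateField ℚ Qbar) [FiniteDimensional ℚ L]
    (hle : K ≤ L) :
    letI := algAKL A hle
    ∃ E : ChartIso (H.c0.baseChange ↥L) (tL H hle),
      IsStdIso (M' * q) hle H.β0 H.β1 H.β01 E := by
  obtain ⟨π', hπ'⟩ := exists_isUnif_AKL (A := A) hℓ hA L
  exact exists_stdIso_EL A hle M' q hℓ hA H.hπ hπ' H.hE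
    (Fermat.Agent.RED.PUR.GaussBridge10.FK_le_fracField A L (M' * q)) H.ht (htL H hle) H.num

/-- **The chosen chart isomorphism of the nodal hub over `L ⊇ K`.** -/
def E (H : NodalHubAt A q M' n e K) {ℓ : ℕ} (hℓ : ℓ ≠ 0)
    (hA : A.LiesOverPrime ℓ) (L : IntermediateField ℚ Qbar) [FiniteDimensional ℚ L]
    (hle : K ≤ L) :
    letI := algAKL A hle
    ChartIso (H.c0.baseChange ↥L) (tL H hle) :=
  letI := algAKL A hle
  Classical.choose (exists_stdIso H hℓ hA L hle)

/-- **It is standard.** -/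
theorem isStdIso (H : NodalHubAt A q M' n e K) {ℓ : ℕ} (hℓ : ℓ ≠ 0)
    (hA : A.LiesOverPrime ℓ) (L : IntermediateField ℚ Qbar) [FiniteDimensional ℚ L]
    (hle : K ≤ L) :
    letI := algAKL A hle
    IsStdIso (M' * q) hle H.β0 H.β1 H.β01 (E H hℓ hA L hle) :=
  letI := algAKL A hle
  Classical.choose_spec (exists_stdIso H hℓ hA L hle)

/-- **J-BRIDGE (B1) CHARTISO-N: the chart isomorphism family of the nodal hub.** -/
def nodalChartIsoFamilyN (H : NodalHubAt A q M' n e K) {ℓ : ℕ} (hℓ : ℓ ≠ 0)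
    (hA : A.LiesOverPrime ℓ) : ChartIsoFamilyN A (M' * q) K H.c0 :=
  nodalFamily H (fun L _ _ hle => E H hℓ hA L hle) (fun L _ _ hle => isStdIso H hℓ hA L hle)

end Fermat.Agent.T1B.Bridge25.FamilyN
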